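import Fermat.Agent.Shirshov.Words
import Mathlib.RingTheory.FiniteType
import Mathlib.RingTheory.IntegralClosure.IsIntegralClosure.Basic
import Mathlib.Data.Set.Finite.List

/-!
# Shirshov's height theorem for algebras with an identity

The identity rewrites a divisible monomial in lexicographically smaller ones of the same length.
-/

set_option autoImplicit false

noncomputable section

namespace FA.Shirshov

open Equiv
open FA.Regev (IsMultiId rearrange)

variable {K : Type*} [Field K] {A : Type*} [Ring A] [Algebra K A]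
variable {α : Type*}

/-- A monomial in the generators. -/
def monom (g : α → A) (w : List α) : A := (w.map g).prod

omit [Algebra K A] in
theorem monom_power (g : α → A) (u : List α) (q : ℕ) :
    monom g (List.replicate q u).flatten = monom g u ^ q := by
  simp [monom, List.map_flatten, List.prod_flatten, List.map_replicate, List.prod_replicate]

theorem IsDiv.restrict [LinearOrder α] {e f : ℕ} {w : List α} (h : IsDiv (e + f) w) :
    IsDiv e w := by
  obtain ⟨p, s, B, hw, hB⟩ := h
  obtain ⟨B₁, hB₁⟩ : ∃ B₁ : Fin e → List α, B₁ = fun i => B (i.castAdd f) := ⟨_, rfl⟩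
  obtain ⟨R, hR⟩ : ∃ R, R = (List.ofFn fun i => B (Fin.natAdd e i)).flatten := ⟨_, rfl⟩
  have hsplit : ∀ B : Fin (e + f) → List α, (List.ofFn B).flatten =
      (List.ofFn fun i => B (i.castAdd f)).flatten ++
        (List.ofFn fun i => B (Fin.natAdd e i)).flatten := fun B => by
    rw [← List.flatten_append, ← List.ofFn_fin_append]
    congr 2
    exact (Fin.append_castAdd_natAdd).symm
  rw [hsplit, ← hR] at hw
  refine ⟨p, R ++ s, B₁, by rw [hw, hB₁]; simp [List.append_assoc], fun τ hτ => ?_⟩
  set τ' : Perm (Fin (e + f)) :=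
    (finSumFinEquiv : Fin e ⊕ Fin f ≃ Fin (e + f)).permCongr (Equiv.sumCongr τ 1)
  have hl : ∀ i, τ' (i.castAdd f) = (τ i).castAdd f := fun i => by simp [τ', Equiv.permCongr_apply]
  have hr : ∀ i, τ' (Fin.natAdd e i) = Fin.natAdd e i := fun i => by
    simp [τ', Equiv.permCongr_apply]
  have hne : τ' ≠ 1 := fun h1 => hτ (Equiv.ext fun i => by
    have := hl i
    rw [h1, Perm.one_apply] at this
    exact (Fin.castAdd_injective _ _ this).symm)
  have hlt := hB τ' hne
  rw [hsplit, hsplit B] at hlt
  simp only [hl, hr, ← hR] at hlt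
  rw [← hB₁] at hlt
  have hlen : (List.ofFn fun i => B (Fin.castAdd f (τ i))).flatten.length =
      (List.ofFn B₁).flatten.length := by
    rw [hB₁]
    exact (Equiv.Perm.ofFn_comp_perm τ fun i => B (Fin.castAdd f i)).flatten.length_eq
  simp only [hB₁] at hlt hlen ⊢
  rcases lt_trichotomy (List.ofFn fun i => B (Fin.castAdd f (τ i))).flatten
    (List.ofFn fun i => B (i.castAdd f)).flatten with h | h | h
  · exact h
  · rw [h] at hlt
    exact absurd hlt (lt_irrefl _)
  · exact absurd (append_lt_append hlen.symm h R R) hlt.asymm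

variable [LinearOrder α] [Fintype α]

/-- **The height theorem.** -/
theorem monom_mem_span {e n : ℕ} {a : Perm (Fin e) → K} (hA : IsMultiId A a) (ha : a ≠ 0)
    (he : e ≤ n) (hn : 2 ≤ n) (g : α → A) (w : List α) :
    monom g w ∈ Submodule.span K (monom g ''
      {v | v.length = w.length ∧ HeightLE n (shirshovHeight α n) v}) := by
  obtain ⟨τ₀, h₀⟩ := Function.ne_iff.1 ha
  obtain ⟨N, hN⟩ : ∃ N, N = w.length := ⟨_, rfl⟩
  rw [← hN]
  set S := Submodule.span K (monom g '' {v | v.length = N ∧ HeightLE n (shirshovHeight α n) v})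
  by_contra hw
  obtain ⟨v, ⟨hvN, hv⟩, hmin⟩ := Set.exists_min_image {v : List α | v.length = N ∧ monom g v ∉ S} id
    ((List.finite_length_eq α N).subset fun v hv => hv.1) ⟨w, hN.symm, hw⟩
  rcases heightLE_or_isDiv hn v with hh | hd
  · exact hv (Submodule.subset_span ⟨v, ⟨hvN, hh⟩, rfl⟩)
  obtain ⟨f, rfl⟩ : ∃ f, n = e + f := ⟨n - e, by omega⟩
  obtain ⟨p, s, B, rfl, hB⟩ := hd.restrict
  refine hv ?_
  have key : ∀ τ : Perm (Fin e), monom g (p ++ (List.ofFn fun i => B (τ i)).flatten ++ s) =
      monom g p * (List.ofFn fun i => monom g (B (τ i))).prod * monom g s := fun τ => by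
    simp [monom, List.map_flatten, List.prod_flatten, List.map_ofFn, Function.comp_def, mul_assoc]
  have h1 := key 1
  simp only [Perm.one_apply] at h1
  rw [h1, rearrange hA h₀, Finset.mul_sum, Finset.sum_mul]
  refine sum_mem fun τ hτ => ?_
  rw [mul_smul_comm, smul_mul_assoc, ← key]
  refine S.smul_mem _ ?_
  by_contra hc
  have hlen : (p ++ (List.ofFn fun i => B (τ i)).flatten ++ s).length = N := by
    rw [← hvN]
    simp only [List.length_append]
    rw [show (List.ofFn fun i => B (τ i)).flatten.length = (List.ofFn B).flatten.length from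
      (Equiv.Perm.ofFn_comp_perm τ B).flatten.length_eq]
  have hle : (p ++ (List.ofFn B).flatten ++ s) ≤ (p ++ (List.ofFn fun i => B (τ i)).flatten ++ s) :=
    hmin _ ⟨hlen, hc⟩
  refine hle.not_gt ?_
  rw [List.append_assoc, List.append_assoc]
  exact List.append_left_lt (append_lt_append
    (Equiv.Perm.ofFn_comp_perm τ B).flatten.length_eq (hB τ (Finset.ne_of_mem_erase hτ)) s s)

omit [LinearOrder α] [Fintype α] in
theorem exists_factors {n H : ℕ} (hn : 0 < n) {w : List α} (h : HeightLE n H w) :
    ∃ F : Fin H → List α × ℕ, (∀ i, (F i).1.length < n ∧ (F i).2 ≤ w.length) ∧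
      w = (List.ofFn fun i => (List.replicate (F i).2 (F i).1).flatten).flatten := by
  obtain ⟨us, hlen, hus, rfl⟩ := h
  induction us generalizing H with
  | nil => exact ⟨fun _ => ([], 0), fun _ => ⟨hn, Nat.zero_le _⟩, by simp⟩
  | cons u us ih =>
    obtain ⟨H, rfl⟩ : ∃ H', H = H' + 1 := ⟨H - 1, by simp at hlen; omega⟩
    obtain ⟨F, hF, he⟩ := ih (H := H) (by simp at hlen; omega)
      fun x hx => hus x (List.mem_cons_of_mem _ hx)
    obtain ⟨h1, h2⟩ := hus u List.mem_cons_self
    refine ⟨Fin.cons u F, fun i => ?_, by simp [List.ofFn_succ, ← he]⟩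
    induction i using Fin.cases with
    | zero =>
      simp only [Fin.cons_zero, List.map_cons, List.flatten_cons, List.length_append]
      refine ⟨h2, le_add_right ?_⟩
      simpa using Nat.le_mul_of_pos_right u.2 (List.length_pos_iff.2 h1)
    | succ i =>
      simp only [Fin.cons_succ, List.map_cons, List.flatten_cons, List.length_append]
      exact ⟨(hF i).1, le_add_left (hF i).2⟩

/-- **Polynomial growth.** -/
theorem finrank_le_poly {e n : ℕ} {a : Perm (Fin e) → K} (hA : IsMultiId A a) (ha : a ≠ 0)
    (he : e ≤ n) (hn : 2 ≤ n) (g : α → A) (m : ℕ) :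
    Module.finrank K (Submodule.span K (monom g '' {w | w.length ≤ m})) ≤
      Nat.card {u : List α // u.length < n} ^ shirshovHeight α n *
        (m + 1) ^ shirshovHeight α n := by
  classical
  set H := shirshovHeight α n
  have : Finite {u : List α // u.length < n} :=
    ((List.finite_length_le α n).subset fun u (hu : u.length < n) => hu.le).to_subtype
  have : Fintype {u : List α // u.length < n} := Fintype.ofFinite _
  set Φ : (Fin H → {u : List α // u.length < n} × Fin (m + 1)) → A := fun F =>
    monom g (List.ofFn fun i => (List.replicate ((F i).2 : ℕ) (F i).1.1).flatten).flatten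
  have hle : Submodule.span K (monom g '' {w | w.length ≤ m}) ≤ Submodule.span K (Set.range Φ) := by
    refine Submodule.span_le.2 ?_
    rintro _ ⟨w, hw, rfl⟩
    refine Submodule.span_mono ?_ (monom_mem_span hA ha he hn g w)
    rintro _ ⟨v, ⟨hv, hh⟩, rfl⟩
    obtain ⟨F, hF, hvF⟩ := exists_factors (by omega) hh
    have hw' : w.length ≤ m := hw
    exact ⟨fun i => (⟨(F i).1, (hF i).1⟩, ⟨(F i).2, by have := (hF i).2; omega⟩),
      congrArg (monom g) hvF.symm⟩
  have : Module.Finite K (Submodule.span K (Set.range Φ)) :=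
    Module.Finite.span_of_finite K (Set.finite_range _)
  refine ((Submodule.finrank_mono hle).trans (finrank_range_le_card Φ)).trans ?_
  simp [Nat.card_eq_fintype_card, mul_pow]

omit [LinearOrder α] [Fintype α] in
theorem top_le_span_monom (g : α → A) (hg : Algebra.adjoin K (Set.range g) = ⊤) :
    (⊤ : Submodule K A) ≤ Submodule.span K (Set.range (monom g)) := by
  rw [← Algebra.top_toSubmodule, ← hg, Algebra.adjoin_eq_span, ← FreeMonoid.mrange_lift,
    MonoidHom.coe_mrange]
  refine Submodule.span_mono ?_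
  rintro _ ⟨w, rfl⟩
  exact ⟨w.toList, by rw [monom, FreeMonoid.lift_apply]⟩

/-- **The Kurosh problem.** -/
theorem finite_of_integral {e n : ℕ} {a : Perm (Fin e) → K} (hA : IsMultiId A a) (ha : a ≠ 0)
    (he : e ≤ n) (hn : 2 ≤ n) (g : α → A) (hg : Algebra.adjoin K (Set.range g) = ⊤)
    (hint : ∀ u : List α, u.length < n → IsIntegral K (monom g u)) : Module.Finite K A := by
  classical
  have hfin := (List.finite_length_le α n).subset fun u (hu : u.length < n) => hu.le
  set S : Submodule K A := hfin.toFinset.sup fun u =>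
    Subalgebra.toSubmodule (Algebra.adjoin K {monom g u})
  have hS : S.FG := Submodule.fg_finset_sup _ _ fun u hu =>
    (hint u (hfin.mem_toFinset.1 hu)).fg_adjoin_singleton
  have hmem : ∀ u : List α, u.length < n → ∀ q, monom g u ^ q ∈ S := fun u hu q =>
    Finset.le_sup (f := fun u => Subalgebra.toSubmodule (Algebra.adjoin K {monom g u}))
      (hfin.mem_toFinset.2 hu) (pow_mem (Algebra.self_mem_adjoin_singleton K _) q)
  refine ⟨?_⟩
  have hle : (⊤ : Submodule K A) ≤ S ^ shirshovHeight α n := by
    refine (top_le_span_monom g hg).trans (Submodule.span_le.2 ?_)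
    rintro _ ⟨w, rfl⟩
    refine Submodule.span_le.2 ?_ (monom_mem_span hA ha he hn g w)
    rintro _ ⟨v, ⟨-, hh⟩, rfl⟩
    obtain ⟨F, hF, hvF⟩ := exists_factors (by omega) hh
    rw [hvF]
    have : ∀ {H : ℕ} (F : Fin H → List α × ℕ), (∀ i, (F i).1.length < n) →
        monom g (List.ofFn fun i => (List.replicate (F i).2 (F i).1).flatten).flatten ∈ S ^ H := by
      intro H
      induction H with
      | zero => intro F _; rw [Submodule.pow_zero]; exact Submodule.one_le.1 le_rfl
      | succ H ih =>
        intro F hF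
        rw [pow_succ', List.ofFn_succ, List.flatten_cons,
          show ∀ x y, monom g (x ++ y) = monom g x * monom g y from fun x y => by simp [monom],
          monom_power]
        exact Submodule.mul_mem_mul (hmem _ (hF 0) _) (ih (fun i => F i.succ) fun i => hF i.succ)
    exact this F fun i => (hF i).1
  rw [top_le_iff.1 hle |>.symm]
  exact hS.pow _

/-- **Nil implies nilpotent.** -/
theorem exists_monom_eq_zero {e n : ℕ} {a : Perm (Fin e) → K} (hA : IsMultiId A a) (ha : a ≠ 0)
    (he : e ≤ n) (hn : 2 ≤ n) (g : α → A)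
    (hnil : ∀ u : List α, u ≠ [] → u.length < n → IsNilpotent (monom g u)) :
    ∃ N, ∀ w : List α, N ≤ w.length → monom g w = 0 := by
  classical
  have hfin := (List.finite_length_le α n).subset fun u (hu : u.length < n) => hu.le
  have hex : ∀ u : List α, ∃ D : ℕ, u ≠ [] → u.length < n → monom g u ^ D = 0 := fun u => by
    by_cases h : u ≠ [] ∧ u.length < n
    · obtain ⟨D, hD⟩ := hnil u h.1 h.2
      exact ⟨D, fun _ _ => hD⟩
    · exact ⟨0, fun h1 h2 => absurd ⟨h1, h2⟩ h⟩
  choose D hD using hex
  obtain ⟨M, hM⟩ : ∃ M, M = hfin.toFinset.sup D := ⟨_, rfl⟩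
  refine ⟨shirshovHeight α n * (M * n) + 1, fun w hw => ?_⟩
  refine (Submodule.mem_bot K).1 (Submodule.span_le.2 ?_ (monom_mem_span hA ha he hn g w))
  rintro _ ⟨v, ⟨hvl, us, hlen, hus, rfl⟩, rfl⟩
  rw [SetLike.mem_coe, Submodule.mem_bot]
  have hbig : ∃ u ∈ us, M ≤ u.2 := by
    by_contra! hc
    have h1 : ((us.map fun u => (List.replicate u.2 u.1).flatten).flatten).length ≤
        us.length * (M * n) := by
      rw [List.length_flatten, List.map_map]
      refine le_trans (List.sum_le_card_nsmul _ (M * n) fun x hx => ?_) (by simp)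
      obtain ⟨u, hu, rfl⟩ := List.mem_map.1 hx
      simpa using Nat.mul_le_mul (hc u hu).le (hus u hu).2.le
    have := Nat.mul_le_mul_right (M * n) hlen
    omega
  obtain ⟨u, hu, hMu⟩ := hbig
  rw [monom, List.map_flatten, List.prod_flatten, List.map_map, List.map_map]
  refine List.prod_eq_zero (List.mem_map.2 ⟨u, hu, ?_⟩)
  obtain ⟨h1, h2⟩ := hus u hu
  refine (monom_power g u.1 u.2).trans (pow_eq_zero_of_le ?_ (hD u.1 h1 h2))
  exact le_trans (hM ▸ Finset.le_sup (hfin.mem_toFinset.2 h2)) hMu

end FA.Shirshov
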