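import Fermat.Agent.Regev.Main
import Mathlib.Combinatorics.Pigeonhole
import Mathlib.Data.Fintype.Option
import Mathlib.Data.Fin.Tuple.Sort

/-!
# Shirshov's height theorem for words

Cut a word into windows of length `4 n - 1`. Either a window has `n` different factors of length
`3 n` at its first `n` places, or a short period; periods of overlapping windows agree, so without
windows of the first kind the word has bounded height, and many of them give divisibility.
-/

set_option autoImplicit false

noncomputable section

namespace FA.Shirshov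

open Equiv

variable {α : Type*}

/-- The word is a product of at most `H` powers of nonempty words shorter than `n`. -/
def HeightLE (n H : ℕ) (w : List α) : Prop :=
  ∃ us : List (List α × ℕ), us.length ≤ H ∧ (∀ u ∈ us, u.1 ≠ [] ∧ u.1.length < n) ∧
    w = (us.map fun u => (List.replicate u.2 u.1).flatten).flatten

/-- The word is `n`-divisible. -/
def IsDiv [LinearOrder α] (n : ℕ) (w : List α) : Prop :=
  ∃ (p s : List α) (B : Fin n → List α), w = p ++ (List.ofFn B).flatten ++ s ∧
    ∀ τ : Perm (Fin n), τ ≠ 1 → (List.ofFn fun i => B (τ i)).flatten < (List.ofFn B).flatten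

/-- A window with `n` different factors. -/
def IsVaried (n : ℕ) (w : List α) (s : ℕ) : Prop :=
  s + (4 * n - 1) ≤ w.length ∧
    ∀ i j : Fin n, i ≠ j → (w.drop (s + i)).take (3 * n) ≠ (w.drop (s + j)).take (3 * n)

theorem HeightLE.mono {n H H' : ℕ} {w : List α} (h : HeightLE n H w) (hH : H ≤ H') :
    HeightLE n H' w :=
  let ⟨us, h1, h2, h3⟩ := h
  ⟨us, h1.trans hH, h2, h3⟩

theorem HeightLE.append {n H H' : ℕ} {w w' : List α} (h : HeightLE n H w)
    (h' : HeightLE n H' w') : HeightLE n (H + H') (w ++ w') := by
  obtain ⟨us, h1, h2, rfl⟩ := h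
  obtain ⟨us', h1', h2', rfl⟩ := h'
  refine ⟨us ++ us', by rw [List.length_append]; omega, fun u hu => ?_, by simp⟩
  rcases List.mem_append.1 hu with hu | hu
  exacts [h2 u hu, h2' u hu]

theorem heightLE_length {n : ℕ} (hn : 2 ≤ n) (w : List α) : HeightLE n w.length w := by
  refine ⟨w.map fun x => ([x], 1), by simp, fun u hu => ?_, ?_⟩
  · obtain ⟨x, -, rfl⟩ := List.mem_map.1 hu
    exact ⟨List.cons_ne_nil _ _, hn⟩
  · induction w with
    | nil => rfl
    | cons x w ih => simpa [Function.comp_def] using ih

theorem heightLE_power {n : ℕ} {u : List α} (h0 : u ≠ []) (h : u.length < n) (q : ℕ) :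
    HeightLE n 1 (List.replicate q u).flatten :=
  ⟨[(u, q)], le_rfl, fun x hx => by
    rw [List.mem_singleton] at hx
    subst hx
    exact ⟨h0, h⟩, by simp⟩

/-- A window of the second kind has a period. -/
theorem exists_period {n : ℕ} {w : List α} {s : ℕ} (hs : s + (4 * n - 1) ≤ w.length)
    (h : ¬IsVaried n w s) :
    ∃ i t : ℕ, 0 < t ∧ i + t < n ∧ ∀ k < 3 * n, w[s + i + k]? = w[s + i + k + t]? := by
  simp only [IsVaried, hs, true_and, not_forall, not_not] at h
  obtain ⟨i, j, hij, he⟩ := h
  wlog hlt : (i : ℕ) < j generalizing i j
  · exact this j i (Ne.symm hij) he.symm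
      (lt_of_le_of_ne (not_lt.1 hlt) fun e => hij (Fin.ext e.symm))
  refine ⟨i, j - i, Nat.sub_pos_of_lt hlt, by have := j.2; omega, fun k hk => ?_⟩
  have := congrArg (fun l : List α => l[k]?) he
  simp only [List.getElem?_take, if_pos hk, List.getElem?_drop] at this
  rw [show s + i + k + (j - i) = s + j + k by omega]
  exact this

theorem replicate_flatten_of_periodic {w : List α} {i t : ℕ} : ∀ q : ℕ,
    (∀ k, k + t < q * t → w[i + k]? = w[i + k + t]?) → i + q * t ≤ w.length →
      (w.drop i).take (q * t) = (List.replicate q ((w.drop i).take t)).flatten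
  | 0, _, _ => by simp
  | q + 1, h, hle => by
    rw [Nat.succ_mul] at hle h
    rw [Nat.succ_mul, add_comm, List.take_add, List.replicate_succ, List.flatten_cons,
      List.drop_drop]
    congr 1
    rw [← replicate_flatten_of_periodic q (fun k hk => h k (by omega)) (by omega)]
    refine List.ext_getElem? fun k => ?_
    simp only [List.getElem?_take, List.getElem?_drop]
    split_ifs with hk
    · rw [h k (by omega)]
      congr 1
      omega
    · rfl

/-- **A word without varied windows.** -/
theorem heightLE_of_no_varied {n : ℕ} (hn : 2 ≤ n) {w : List α} (h : ∀ s, ¬IsVaried n w s) :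
    HeightLE n (4 * n) w := by
  rcases lt_or_ge w.length (4 * n - 1) with hlt | hge
  · exact (heightLE_length hn w).mono (by omega)
  obtain ⟨i, t, ht, hit, hp⟩ := exists_period (s := 0) (by omega) (h 0)
  simp only [zero_add] at hp
  have hper : ∀ k, i + k + t + n ≤ w.length → w[i + k]? = w[i + k + t]? := by
    intro k
    induction k using Nat.strong_induction_on with
    | _ k ih =>
      intro hk
      rcases lt_or_ge k (3 * n) with hk' | hk'
      · exact hp k hk'
      obtain ⟨j, u, hu, hju, hq⟩ := exists_period (s := i + k + t + 1 - 3 * n) (by omega)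
        (h (i + k + t + 1 - 3 * n))
      set s := i + k + t + 1 - 3 * n with hs
      have e1 : w[i + k + t - u]? = w[i + k + t]? := by
        have := hq (i + k + t - u - (s + j)) (by omega)
        rwa [show s + j + (i + k + t - u - (s + j)) = i + k + t - u by omega,
          show i + k + t - u + u = i + k + t by omega] at this
      have e2 : w[i + (k - u)]? = w[i + (k - u) + t]? := ih (k - u) (by omega) (by omega)
      have e3 : w[i + k - u]? = w[i + k]? := by
        have := hq (i + k - u - (s + j)) (by omega)
        rwa [show s + j + (i + k - u - (s + j)) = i + k - u by omega,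
          show i + k - u + u = i + k by omega] at this
      rw [← e1, ← e3, show i + k - u = i + (k - u) by omega, e2]
      congr 1
      omega
  set q := (w.length - n - i) / t
  have hqt : q * t ≤ w.length - n - i := Nat.div_mul_le_self _ _
  have hqt' : w.length - n - i < q * t + t := by
    have := Nat.lt_div_mul_add (a := w.length - n - i) ht
    omega
  have hw : w = w.take i ++ ((w.drop i).take (q * t) ++ (w.drop i).drop (q * t)) := by
    rw [List.take_append_drop, List.take_append_drop]
  rw [hw, replicate_flatten_of_periodic q (fun k hk => hper k (by omega)) (by omega)]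
  refine ((heightLE_length hn _).append
    ((heightLE_power ?_ ?_ q).append (heightLE_length hn _))).mono ?_
  · rw [ne_eq, List.take_eq_nil_iff, List.drop_eq_nil_iff]
    omega
  · rw [List.length_take]
    omega
  · simp only [List.length_take, List.length_drop]
    omega

/-- Many disjoint varied windows or bounded height. -/
theorem heightLE_or_windows {n : ℕ} (hn : 2 ≤ n) : ∀ (r : ℕ) (w : List α),
    HeightLE n (r * (8 * n) + 4 * n) w ∨ ∃ s : Fin r → ℕ,
      (∀ a b, a < b → s a + (4 * n - 1) ≤ s b) ∧ ∀ a, IsVaried n w (s a)
  | 0, w => Or.inr ⟨Fin.elim0, fun a => a.elim0, fun a => a.elim0⟩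
  | r + 1, w => by
    classical
    by_cases h : ∃ s, IsVaried n w s
    · set p := Nat.find h with hp
      have hpv : IsVaried n w p := Nat.find_spec h
      set e := p + (4 * n - 1) with he
      have hel : e ≤ w.length := hpv.1
      rcases heightLE_or_windows hn r (w.drop e) with hh | ⟨s, hs1, hs2⟩
      · refine Or.inl ?_
        have hpre : HeightLE n (4 * n) (w.take (e - 1)) := by
          refine heightLE_of_no_varied hn fun s hs => ?_
          have hs' := hs.1
          rw [List.length_take] at hs'
          refine Nat.find_min h (show s < p by omega) ⟨by omega, fun i j hij => ?_⟩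
          have key : ∀ i : Fin n, ((w.take (e - 1)).drop (s + i)).take (3 * n) =
              (w.drop (s + i)).take (3 * n) := fun i => by
            rw [List.drop_take, List.take_take]
            congr 1
            have := i.2
            omega
          rw [← key, ← key]
          exact hs.2 i j hij
        have hw : w = w.take (e - 1) ++ ((w.drop (e - 1)).take 1 ++ w.drop e) := by
          conv_lhs => rw [← List.take_append_drop (e - 1) w,
            ← List.take_append_drop 1 (w.drop (e - 1)), List.drop_drop]
          rw [show e - 1 + 1 = e by omega]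
        rw [hw]
        refine (hpre.append ((heightLE_length hn _).append hh)).mono ?_
        simp only [List.length_take, Nat.succ_mul]
        omega
      · refine Or.inr ⟨Fin.cons p fun a => e + s a, fun a b hab => ?_, fun a => ?_⟩
        · induction b using Fin.cases with
          | zero => exact absurd hab (Fin.not_lt_zero a)
          | succ b =>
            induction a using Fin.cases with
            | zero => simp only [Fin.cons_zero, Fin.cons_succ]; omega
            | succ a =>
              simp only [Fin.cons_succ]
              have := hs1 a b (Fin.succ_lt_succ_iff.1 hab)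
              omega
        · induction a using Fin.cases with
          | zero => simpa only [Fin.cons_zero] using hpv
          | succ a =>
            simp only [Fin.cons_succ]
            obtain ⟨h1, h2⟩ := hs2 a
            rw [List.length_drop] at h1
            refine ⟨by omega, fun i j hij => ?_⟩
            have := h2 i j hij
            rwa [List.drop_drop, List.drop_drop, ← add_assoc, ← add_assoc] at this
    · exact Or.inl ((heightLE_of_no_varied hn (not_exists.1 h)).mono (by omega))

/-- Cutting at given places. -/
theorem exists_cut (w : List α) (L : ℕ) : ∀ {k : ℕ} (P : Fin (k + 1) → ℕ),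
    (∀ a : Fin k, P a.castSucc + L ≤ P a.succ) → P (Fin.last k) + L ≤ w.length →
      ∃ B : Fin (k + 1) → List α, w.drop (P 0) = (List.ofFn B).flatten ∧ P 0 + L ≤ w.length ∧
        ∀ a, (B a).take L = (w.drop (P a)).take L ∧ L ≤ (B a).length
  | 0, P, _, hl => by
    rw [Fin.last_zero] at hl
    refine ⟨fun _ => w.drop (P 0), by simp, hl, fun a => ?_⟩
    rw [Fin.fin_one_eq_zero a, List.length_drop]
    exact ⟨rfl, by omega⟩
  | k + 1, P, hP, hl => by
    obtain ⟨B, hB, h1, hB'⟩ := exists_cut w L (fun a => P a.succ)
      (fun a => by simpa only [Fin.succ_castSucc] using hP a.succ) (by simpa only [Fin.succ_last])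
    have h0 : P 0 + L ≤ P (Fin.succ 0) := hP 0
    refine ⟨Fin.cons ((w.drop (P 0)).take (P (Fin.succ 0) - P 0)) B, ?_, by omega, fun a => ?_⟩
    · rw [List.ofFn_succ, List.flatten_cons]
      simp only [Fin.cons_zero, Fin.cons_succ]
      rw [← hB]
      conv_lhs => rw [← List.take_append_drop (P (Fin.succ 0) - P 0) (w.drop (P 0)),
        List.drop_drop]
      rw [show P 0 + (P (Fin.succ 0) - P 0) = P (Fin.succ 0) by omega]
    · induction a using Fin.cases with
      | zero =>
        simp only [Fin.cons_zero, List.take_take, List.length_take, List.length_drop]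
        exact ⟨by rw [min_eq_left (by omega)], by omega⟩
      | succ a => simpa only [Fin.cons_succ] using hB' a

/-- Comparing words by their beginnings. -/
theorem append_lt_append [LinearOrder α] : ∀ {a b : List α}, a.length = b.length → a < b →
    ∀ x y : List α, a ++ x < b ++ y
  | [], [], _, h, _, _ => absurd h (lt_irrefl _)
  | [], _ :: _, hl, _, _, _ => absurd hl (by simp)
  | _ :: _, [], hl, _, _, _ => absurd hl (by simp)
  | c :: a, d :: b, hl, h, x, y => by
    rw [List.cons_append, List.cons_append, List.cons_lt_cons_iff]
    rcases List.cons_lt_cons_iff.1 h with hcd | ⟨rfl, hab⟩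
    · exact Or.inl hcd
    · exact Or.inr ⟨rfl, append_lt_append (by simpa using hl) hab x y⟩

theorem flatten_lt_of_first [LinearOrder α] : ∀ {d : ℕ} (B B' : Fin d → List α) (k : Fin d),
    (∀ i < k, B i = B' i) → (∀ x y, B k ++ x < B' k ++ y) →
      (List.ofFn B).flatten < (List.ofFn B').flatten
  | 0, _, _, k, _, _ => k.elim0
  | d + 1, B, B', k, h, hk => by
    rw [List.ofFn_succ, List.ofFn_succ, List.flatten_cons, List.flatten_cons]
    induction k using Fin.cases with
    | zero => exact hk _ _
    | succ j =>
      rw [h 0 j.succ_pos]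
      exact List.append_left_lt (flatten_lt_of_first (fun i => B i.succ) (fun i => B' i.succ) j
        (fun i hi => h i.succ (Fin.succ_lt_succ_iff.2 hi)) hk)

/-- The height of Shirshov's theorem. -/
def shirshovHeight (α : Type*) [Fintype α] (n : ℕ) : ℕ :=
  (Fintype.card (Fin n → Fin (3 * n) → Option α) * n + 1) * (8 * n) + 4 * n

/-- **Shirshov's theorem on words.** -/
theorem heightLE_or_isDiv [LinearOrder α] [Fintype α] {n : ℕ} (hn : 2 ≤ n) (w : List α) :
    HeightLE n (shirshovHeight α n) w ∨ IsDiv n w := by
  classical
  rcases heightLE_or_windows hn (Fintype.card (Fin n → Fin (3 * n) → Option α) * n + 1) w with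
    h | ⟨s, hs1, hs2⟩
  · exact Or.inl h
  right
  obtain ⟨c, hc⟩ := Fintype.exists_lt_card_fiber_of_mul_lt_card
    (f := fun a (i : Fin n) (l : Fin (3 * n)) => w[s a + (i : ℕ) + (l : ℕ)]?) (n := n)
    (by rw [Fintype.card_fin]; omega)
  obtain ⟨T, hT, hTcard⟩ := Finset.exists_subset_card_eq hc.le
  set e := T.orderEmbOfFin hTcard
  have hce : ∀ a (i : Fin n) (l : Fin (3 * n)), w[s (e a) + i + l]? = c i l := fun a i l =>
    congrFun (congrFun (Finset.mem_filter.1 (hT (T.orderEmbOfFin_mem hTcard a))).2 i) l
  obtain ⟨k, rfl⟩ : ∃ k, n = k + 1 := ⟨n - 1, by omega⟩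
  set z : Fin (k + 1) → List α := fun i => (w.drop (s (e 0) + i)).take (3 * (k + 1))
  have hz : ∀ a (i : Fin (k + 1)), (w.drop (s (e a) + i)).take (3 * (k + 1)) = z i := fun a i => by
    refine List.ext_getElem? fun l => ?_
    simp only [z, List.getElem?_take, List.getElem?_drop]
    split_ifs with hl
    · rw [hce a i ⟨l, hl⟩, hce 0 i ⟨l, hl⟩]
    · rfl
  have hzinj : Function.Injective z := fun i j hij =>
    by_contra fun hne => (hs2 (e 0)).2 i j hne hij
  set π := Tuple.sort z
  have hmono : StrictMono (z ∘ π) :=
    (Tuple.monotone_sort z).strictMono_of_injective (hzinj.comp π.injective)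
  set P : Fin (k + 1) → ℕ := fun a => s (e a) + (π a.rev : ℕ)
  obtain ⟨B, hB, -, hB'⟩ := exists_cut w (3 * (k + 1)) P (fun a => by
      have := hs1 _ _ (e.strictMono (Fin.castSucc_lt_succ (i := a)))
      have := (π a.castSucc.rev).2
      simp only [P]
      omega) (by
      have := (hs2 (e (Fin.last k))).1
      have := (π (Fin.last k).rev).2
      simp only [P]
      omega)
  refine ⟨w.take (P 0), [], B, by rw [List.append_nil, ← hB, List.take_append_drop],
    fun τ hτ => ?_⟩
  obtain ⟨a, hfix, hmove⟩ := Regev.exists_first_moved hτ
  refine flatten_lt_of_first _ _ a (fun i hi => by rw [hfix i hi]) fun x y => ?_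
  rw [← List.take_append_drop (3 * (k + 1)) (B (τ a)), ← List.take_append_drop (3 * (k + 1)) (B a),
    List.append_assoc, List.append_assoc, (hB' _).1, (hB' _).1, hz, hz]
  refine append_lt_append ?_ (hmono (Fin.rev_lt_rev.2 hmove)) _ _
  simp only [Function.comp_apply]
  rw [← hz 0, ← hz 0]
  have := (hs2 (e 0)).1
  have := (π a.rev).2
  have := (π (τ a).rev).2
  simp only [List.length_take, List.length_drop]
  omega

end FA.Shirshov
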